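import Fermat.Agent.CubicDescent.TwistedNorm
import Mathlib.LinearAlgebra.Matrix.Charpoly.Coeff

/-!
# Twisted classes of `GL₂` and `PGL₂`

Norms of `GL₂(L)` are conjugate to rational elements, and scalars are removed from the norm in
odd degree, so twisted classes of `PGL₂(L)` inject in the classes of `PGL₂(K)`.
-/

set_option autoImplicit false

namespace Fermat.Agent.CubicDescent

open Matrix

variable {L : Type*} [Field L]

/-- The companion matrix of `X² - t X + d`. -/
def companionTwo (t d : L) : Matrix (Fin 2) (Fin 2) L := !![0, -d; 1, t]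

/-- A non-scalar two by two matrix is conjugate to its companion matrix. -/
theorem exists_conj_companionTwo (A : Matrix (Fin 2) (Fin 2) L)
    (hA : ∀ a : L, A ≠ a • (1 : Matrix (Fin 2) (Fin 2) L)) :
    ∃ P : Matrix (Fin 2) (Fin 2) L, P.det ≠ 0 ∧ A * P = P * companionTwo A.trace A.det := by
  have hdet : A.det = A 0 0 * A 1 1 - A 0 1 * A 1 0 := Matrix.det_fin_two A
  have htr : A.trace = A 0 0 + A 1 1 := Matrix.trace_fin_two A
  by_cases h10 : A 1 0 = 0
  · by_cases h01 : A 0 1 = 0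
    · have hne : A 0 0 ≠ A 1 1 := fun h => hA (A 0 0) (by
        ext i j; fin_cases i <;> fin_cases j <;> simp [h10, h01, h])
      refine ⟨!![1, A 0 0; 1, A 1 1], ?_, ?_⟩
      · simp [Matrix.det_fin_two, sub_ne_zero, hne.symm]
      · rw [hdet, htr]
        ext i j
        fin_cases i <;> fin_cases j <;>
          simp [companionTwo, Matrix.mul_apply, Fin.sum_univ_two, h10, h01] <;> ring
    · refine ⟨!![0, A 0 1; 1, A 1 1], ?_, ?_⟩
      · simp [Matrix.det_fin_two, h01]
      · rw [hdet, htr]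
        ext i j
        fin_cases i <;> fin_cases j <;>
          simp [companionTwo, Matrix.mul_apply, Fin.sum_univ_two] <;> ring
  · refine ⟨!![1, A 0 0; 0, A 1 0], ?_, ?_⟩
    · simp [Matrix.det_fin_two, h10]
    · rw [hdet, htr]
      ext i j
      fin_cases i <;> fin_cases j <;>
        simp [companionTwo, Matrix.mul_apply, Fin.sum_univ_two] <;> ring

theorem companionTwo_map (σ : L ≃+* L) {t d : L} (ht : σ t = t) (hd : σ d = d) :
    (companionTwo t d).map σ = companionTwo t d := by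
  ext i j
  fin_cases i <;> fin_cases j <;> simp [companionTwo, ht, hd]

/-- A twisted norm is conjugate to a matrix fixed by `σ`. -/
theorem exists_rational_norm (σ : L ≃+* L) {n : ℕ} (hσn : σ ^ n = 1)
    (δ : (Matrix (Fin 2) (Fin 2) L)ˣ) :
    ∃ x γ : (Matrix (Fin 2) (Fin 2) L)ˣ, glMap σ γ = γ ∧
      twistedNorm (glMap σ) δ n * x = x * γ := by
  set N := twistedNorm (glMap σ) δ n with hN
  have hper : (⇑(glMap σ))^[n] δ = δ := by
    ext : 1
    rw [glMap_iterate, hσn]
    ext; simp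
  have hconj : glMap σ N = δ⁻¹ * N * δ := by
    have h := twistedNorm_succ' (glMap σ) δ n
    rw [twistedNorm_succ, hper, ← hN] at h
    rw [mul_assoc, ← h, inv_mul_cancel_left]
  have hm : (N : Matrix (Fin 2) (Fin 2) L).map σ =
      (δ⁻¹).val * (N : Matrix (Fin 2) (Fin 2) L) * (δ : Matrix (Fin 2) (Fin 2) L) := by
    rw [← coe_glMap σ N, hconj, Units.val_mul, Units.val_mul]
  have htr : σ (N : Matrix (Fin 2) (Fin 2) L).trace = (N : Matrix (Fin 2) (Fin 2) L).trace := by
    rw [show σ (N : Matrix (Fin 2) (Fin 2) L).trace = ((N : Matrix (Fin 2) (Fin 2) L).map σ).trace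
      from by simp [Matrix.trace_fin_two], hm, Matrix.trace_units_conj']
  have hd : σ (N : Matrix (Fin 2) (Fin 2) L).det = (N : Matrix (Fin 2) (Fin 2) L).det := by
    rw [RingEquiv.map_det, show σ.mapMatrix (N : Matrix (Fin 2) (Fin 2) L) =
      (N : Matrix (Fin 2) (Fin 2) L).map σ from rfl, hm, Matrix.det_units_conj']
  by_cases hA : ∀ a : L, (N : Matrix (Fin 2) (Fin 2) L) ≠ a • 1
  · obtain ⟨P, hP, hPe⟩ := exists_conj_companionTwo _ hA
    have hPu : IsUnit P := (Matrix.isUnit_iff_isUnit_det P).mpr (isUnit_iff_ne_zero.mpr hP)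
    refine ⟨hPu.unit, hPu.unit⁻¹ * N * hPu.unit, ?_, by group⟩
    have hval : (hPu.unit⁻¹ * N * hPu.unit : (Matrix (Fin 2) (Fin 2) L)ˣ).val =
        companionTwo (N : Matrix (Fin 2) (Fin 2) L).trace (N : Matrix (Fin 2) (Fin 2) L).det := by
      rw [mul_assoc, Units.val_mul, Units.val_mul]
      conv_lhs => arg 2; rw [IsUnit.unit_spec, hPe]
      rw [← mul_assoc, IsUnit.val_inv_mul, one_mul]
    ext : 1
    rw [coe_glMap, hval]
    exact companionTwo_map σ htr hd
  · obtain ⟨a, ha⟩ := not_forall_not.mp hA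
    refine ⟨1, N, ?_, by group⟩
    ext : 1
    rw [coe_glMap, hm, ha, mul_smul_comm, smul_mul_assoc, mul_one, Units.inv_mul]

/-- In odd degree a fixed scalar whose square is a norm is itself a norm. -/
theorem eq_prod_of_sq_eq_prod (σ : L ≃+* L) {k : ℕ} {c e : L} (hc : σ c = c) (hc0 : c ≠ 0)
    (he : c ^ 2 = ∏ i : Fin (2 * k + 1), (σ ^ (i : ℕ)) e) :
    c = ∏ i : Fin (2 * k + 1), (σ ^ (i : ℕ)) (c / e ^ k) := by
  have hci : ∀ i : ℕ, (σ ^ i) c = c := by
    intro i
    induction i with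
    | zero => simp
    | succ i ih => rw [pow_succ', RingAut.mul_apply, ih, hc]
  simp only [map_div₀, map_pow, hci, Finset.prod_div_distrib, Finset.prod_const, Finset.card_univ,
    Fintype.card_fin, Finset.prod_pow, ← he]
  field_simp
  ring

/-- The scalar matrix as a unit. -/
noncomputable def scalarUnit {ι : Type*} [Fintype ι] [DecidableEq ι] :
    Lˣ →* (Matrix ι ι L)ˣ :=
  Units.map (Matrix.scalar ι).toMonoidHom

/-- Scalars are central. -/
theorem scalarUnit_comm {ι : Type*} [Fintype ι] [DecidableEq ι] (a : Lˣ)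
    (x : (Matrix ι ι L)ˣ) : scalarUnit a * x = x * scalarUnit a := by
  ext : 1
  exact Matrix.scalar_commute (a : L) (fun r => mul_comm _ r) (x : Matrix ι ι L)

/-- A field automorphism sends scalars to scalars. -/
theorem glMap_scalarUnit {ι : Type*} [Fintype ι] [DecidableEq ι] (σ : L ≃+* L) (a : Lˣ) :
    glMap (ι := ι) σ (scalarUnit a) = scalarUnit (Units.map σ.toRingHom.toMonoidHom a) := by
  ext : 1
  ext i j
  by_cases h : i = j
  · subst h; simp [scalarUnit]
  · simp [scalarUnit, h]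

/-- The determinant of a scalar is its square. -/
theorem det_scalarUnit (a : Lˣ) :
    (scalarUnit (ι := Fin 2) a : Matrix (Fin 2) (Fin 2) L).det = (a : L) ^ 2 := by
  simp [scalarUnit]

theorem det_twistedNorm {ι : Type*} [Fintype ι] [DecidableEq ι] (σ : L ≃+* L)
    (δ : (Matrix ι ι L)ˣ) (i : ℕ) :
    ((twistedNorm (glMap σ) δ i : (Matrix ι ι L)ˣ) : Matrix ι ι L).det =
      ∏ j ∈ Finset.range i, (σ ^ j) (δ : Matrix ι ι L).det := by
  induction i with
  | zero => simp [twistedNorm]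
  | succ i ih =>
    rw [twistedNorm_succ', Units.val_mul, Matrix.det_mul, ih, Finset.prod_range_succ, glMap_iterate]
    exact congrArg _ (RingEquiv.map_det _ _).symm

theorem twistedNorm_scalar_mul {ι : Type*} [Fintype ι] [DecidableEq ι] (σ : L ≃+* L) (a : Lˣ)
    (δ : (Matrix ι ι L)ˣ) (i : ℕ) :
    twistedNorm (glMap σ) (scalarUnit a * δ) i =
      scalarUnit (twistedNorm (Units.map σ.toRingHom.toMonoidHom) a i) *
        twistedNorm (glMap σ) δ i := by
  induction i with
  | zero => simp [twistedNorm]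
  | succ i ih =>
    rw [twistedNorm_succ, ih, map_mul, glMap_scalarUnit, twistedNorm_succ, twistedNorm_succ,
      map_mul]
    simp only [mul_assoc]
    rw [← mul_assoc δ, ← scalarUnit_comm]
    simp only [mul_assoc]

theorem coe_twistedNorm_units (σ : L ≃+* L) (a : Lˣ) (i : ℕ) :
    ((twistedNorm (Units.map σ.toRingHom.toMonoidHom) a i : Lˣ) : L) =
      ∏ j ∈ Finset.range i, (σ ^ j) (a : L) := by
  induction i with
  | zero => simp [twistedNorm]
  | succ i ih =>
    rw [twistedNorm_succ, Units.val_mul, Units.coe_map]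
    rw [ih, Finset.prod_range_succ', mul_comm]
    simp [pow_succ', RingAut.mul_apply, map_prod]

/-- Norms equal up to a scalar force twisted conjugacy up to a scalar. -/
theorem exists_twistedConj_pgl (σ : L ≃+* L) {k : ℕ}
    (hσ : Function.Injective fun i : Fin (2 * k + 1) => (σ ^ (i : ℕ) : L ≃+* L))
    (hσn : σ ^ (2 * k + 1) = 1) [Infinite (fixedSubfield σ)]
    (δ δ' γ : (Matrix (Fin 2) (Fin 2) L)ˣ) (hγ : glMap σ γ = γ) (c : Lˣ)
    (hc : σ (c : L) = c)
    (hδ : twistedNorm (glMap σ) δ (2 * k + 1) = γ)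
    (hδ' : twistedNorm (glMap σ) δ' (2 * k + 1) = scalarUnit c * γ) :
    ∃ (x : (Matrix (Fin 2) (Fin 2) L)ˣ) (a : Lˣ),
      x * γ = γ * x ∧ scalarUnit a * (δ * glMap σ x) = x * δ' := by
  set n := 2 * k + 1 with hn
  let e : L := (δ' : Matrix (Fin 2) (Fin 2) L).det / (δ : Matrix (Fin 2) (Fin 2) L).det
  have hdδ : IsUnit (δ : Matrix (Fin 2) (Fin 2) L).det :=
    (Matrix.isUnit_iff_isUnit_det _).mp δ.isUnit
  have hdδ' : IsUnit (δ' : Matrix (Fin 2) (Fin 2) L).det :=
    (Matrix.isUnit_iff_isUnit_det _).mp δ'.isUnit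
  have hgd : (γ : Matrix (Fin 2) (Fin 2) L).det ≠ 0 :=
    ((Matrix.isUnit_iff_isUnit_det _).mp γ.isUnit).ne_zero
  have h1 := det_twistedNorm σ δ n
  have h2 := det_twistedNorm σ δ' n
  rw [hδ] at h1
  rw [hδ', Units.val_mul, Matrix.det_mul, det_scalarUnit] at h2
  have he : (c : L) ^ 2 = ∏ i : Fin n, (σ ^ (i : ℕ)) e := by
    rw [Fin.prod_univ_eq_prod_range (fun i => (σ ^ i) e) n]
    simp only [e, map_div₀, Finset.prod_div_distrib, ← h1, ← h2]
    field_simp
  have he0 : e ≠ 0 := div_ne_zero hdδ'.ne_zero hdδ.ne_zero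
  let a : Lˣ := Units.mk0 ((c : L) / e ^ k) (div_ne_zero c.ne_zero (pow_ne_zero _ he0))
  have ha : twistedNorm (Units.map σ.toRingHom.toMonoidHom) a n = c := by
    ext
    rw [coe_twistedNorm_units, ← Fin.prod_univ_eq_prod_range (fun i => (σ ^ i) (a : L)) n]
    exact (eq_prod_of_sq_eq_prod σ hc c.ne_zero he).symm
  have hδ'' : twistedNorm (glMap σ) (scalarUnit a * δ) n = scalarUnit c * γ := by
    rw [twistedNorm_scalar_mul, ha, hδ]
  have hfix : glMap σ (scalarUnit c * γ) = scalarUnit c * γ := by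
    rw [map_mul, glMap_scalarUnit, hγ]
    congr 2
    exact Units.ext hc
  obtain ⟨x, hx, hx'⟩ := exists_twistedConj σ (Nat.succ_pos _) hσ hσn (scalarUnit a * δ) δ'
    (scalarUnit c * γ) hfix hδ'' hδ'
  refine ⟨x, a, ?_, by rw [← hx', mul_assoc]⟩
  rw [← mul_assoc, ← scalarUnit_comm c x, mul_assoc, mul_assoc] at hx
  exact mul_left_cancel hx

end Fermat.Agent.CubicDescent
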