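import Mathlib.RingTheory.AdicCompletion.Basic
import Mathlib.Algebra.Ring.Aut
import Mathlib.Tactic.Ring
import Mathlib.Tactic.LinearCombination
import Mathlib.Algebra.BigOperators.Group.Finset.Basic

/-!
# Lifting norms along a complete ideal

If the trace and the norm of an automorphism are surjective modulo a fixed regular element `t`
and the ring is `t`-adically complete, then every fixed unit is a norm.
-/

set_option autoImplicit false

namespace Fermat.Agent.CubicDescent

open Finset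

variable {S : Type*} [CommRing S]

theorem exists_prod_one_add_mul {ι : Type*} (s : Finset ι) (t : S) (a : ι → S) :
    ∃ y : S, ∏ i ∈ s, (1 + t * a i) = 1 + t * ∑ i ∈ s, a i + t ^ 2 * y := by
  classical
  induction s using Finset.induction with
  | empty => exact ⟨0, by simp⟩
  | insert i s hi ih =>
    obtain ⟨y, hy⟩ := ih
    refine ⟨y + a i * ∑ j ∈ s, a j + t * a i * y, ?_⟩
    rw [prod_insert hi, sum_insert hi, hy]
    ring

/-- The `n`-term norm of an automorphism. -/
def autNorm (σ : S ≃+* S) (n : ℕ) (u : S) : S := ∏ i ∈ range n, (σ ^ i) u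

/-- The `n`-term trace of an automorphism. -/
def autTrace (σ : S ≃+* S) (n : ℕ) (u : S) : S := ∑ i ∈ range n, (σ ^ i) u

/-- A fixed element is fixed by every power. -/
theorem aut_pow_fixed {σ : S ≃+* S} {t : S} (ht : σ t = t) (i : ℕ) : (σ ^ i) t = t := by
  induction i with
  | zero => rfl
  | succ i ih => rw [pow_succ', RingAut.mul_apply, ih, ht]

/-- The norm of an automorphism is multiplicative. -/
theorem autNorm_mul (σ : S ≃+* S) (n : ℕ) (u v : S) :
    autNorm σ n (u * v) = autNorm σ n u * autNorm σ n v := by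
  simp [autNorm, map_mul, prod_mul_distrib]

/-- For `σ ^ n = 1` norms are fixed by `σ`. -/
theorem apply_autNorm {σ : S ≃+* S} {n : ℕ} (hσ : σ ^ n = 1) (u : S) :
    σ (autNorm σ n u) = autNorm σ n u := by
  cases n with
  | zero => simp [autNorm]
  | succ m =>
    rw [autNorm, map_prod]
    calc ∏ i ∈ range (m + 1), σ ((σ ^ i) u)
        = ∏ i ∈ range (m + 1), (σ ^ (i + 1)) u := by simp [pow_succ']
      _ = ∏ i ∈ range (m + 1), (σ ^ i) u := by
        rw [prod_range_succ, prod_range_succ', hσ]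
        simp

theorem dvd_autNorm_sub {σ : S ≃+* S} {t : S} (ht : σ t = t) (n m : ℕ) {u v : S}
    (h : t ^ m ∣ u - v) : t ^ m ∣ autNorm σ n u - autNorm σ n v := by
  unfold autNorm
  induction n with
  | zero => simp
  | succ k ih =>
    rw [prod_range_succ, prod_range_succ]
    have h1 : t ^ m ∣ (σ ^ k) u - (σ ^ k) v := by
      have := map_dvd (σ ^ k) h
      rwa [map_pow, aut_pow_fixed ht, map_sub] at this
    obtain ⟨a, ha⟩ := ih
    obtain ⟨b, hb⟩ := h1
    refine ⟨a * (σ ^ k) u + (∏ i ∈ range k, (σ ^ i) v) * b, ?_⟩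
    linear_combination (σ ^ k) u * ha + (∏ i ∈ range k, (σ ^ i) v) * hb

/-- One successive-approximation step. -/
theorem exists_norm_step {σ : S ≃+* S} {n : ℕ} (hσ : σ ^ n = 1) {t : S} (ht : σ t = t)
    (hreg : IsLeftRegular t)
    (htr : ∀ r : S, σ r = r → ∃ s, t ∣ r - autTrace σ n s)
    {r u : S} (hr : σ r = r) (hunit : IsUnit (autNorm σ n u)) {k : ℕ}
    (h : t ^ (k + 1) ∣ r - autNorm σ n u) :
    ∃ u', t ^ (k + 1) ∣ u' - u ∧ t ^ (k + 2) ∣ r - autNorm σ n u' := by
  obtain ⟨x, hx⟩ := h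
  have hxfix : σ x = x := by
    refine hreg.pow (k + 1) ?_
    have := congrArg σ hx
    rw [map_sub, hr, apply_autNorm hσ, map_mul, map_pow, ht, hx] at this
    exact this.symm
  obtain ⟨w, hw⟩ := hunit.exists_left_inv
  have hwfix : σ w = w := by
    have h1 : σ w * autNorm σ n u = 1 := by
      have := congrArg σ hw
      rwa [map_mul, apply_autNorm hσ, map_one] at this
    calc σ w = σ w * (w * autNorm σ n u) := by rw [hw, mul_one]
      _ = w * (σ w * autNorm σ n u) := by ring
      _ = w := by rw [h1, mul_one]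
  obtain ⟨s, z, hz⟩ := htr (x * w) (by rw [map_mul, hxfix, hwfix])
  refine ⟨u * (1 + t ^ (k + 1) * s), ⟨u * s, by ring⟩, ?_⟩
  obtain ⟨y, hy⟩ := exists_prod_one_add_mul (range n) (t ^ (k + 1)) (fun i => (σ ^ i) s)
  have hN : autNorm σ n (1 + t ^ (k + 1) * s) =
      1 + t ^ (k + 1) * autTrace σ n s + (t ^ (k + 1)) ^ 2 * y := by
    rw [autTrace, ← hy, autNorm]
    refine prod_congr rfl fun i _ => ?_
    rw [map_add, map_one, map_mul, map_pow, aut_pow_fixed ht]
  refine ⟨autNorm σ n u * z - t ^ k * autNorm σ n u * y, ?_⟩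
  rw [autNorm_mul, hN]
  linear_combination hx + t ^ (k + 1) * autNorm σ n u * hz - t ^ (k + 1) * x * hw

/-- Every fixed unit is a norm. -/
theorem exists_autNorm_eq {σ : S ≃+* S} {n : ℕ} (hσ : σ ^ n = 1) {t : S} (ht : σ t = t)
    (hreg : IsLeftRegular t) [IsAdicComplete (Ideal.span {t}) S]
    (htr : ∀ r : S, σ r = r → ∃ s, t ∣ r - autTrace σ n s)
    (hnm : ∀ r : S, σ r = r → IsUnit r → ∃ u, t ∣ r - autNorm σ n u)
    {r : S} (hr : σ r = r) (hru : IsUnit r) :
    ∃ u : S, autNorm σ n u = r := by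
  have hmem : ∀ (m : ℕ) (x : S), t ^ m ∣ x →
      x ∈ (Ideal.span {t} ^ m • ⊤ : Submodule S S) := by
    intro m x hx
    rw [smul_eq_mul, Ideal.mul_top, Ideal.span_singleton_pow, Ideal.mem_span_singleton]
    exact hx
  have hdvd : ∀ (m : ℕ) (x : S), x ∈ (Ideal.span {t} ^ m • ⊤ : Submodule S S) → t ^ m ∣ x := by
    intro m x hx
    rwa [smul_eq_mul, Ideal.mul_top, Ideal.span_singleton_pow, Ideal.mem_span_singleton] at hx
  have hunit : ∀ u, t ∣ r - autNorm σ n u → IsUnit (autNorm σ n u) := by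
    intro u ⟨a, ha⟩
    have hJ : t ∈ Ideal.jacobson (⊥ : Ideal S) :=
      IsAdicComplete.le_jacobson_bot (Ideal.span {t}) (Ideal.mem_span_singleton_self t)
    obtain ⟨r', rfl⟩ := hru
    have h1 : IsUnit (t * (-a * ((r'⁻¹ : Sˣ) : S)) + 1) := Ideal.mem_jacobson_bot.mp hJ _
    have h2 : autNorm σ n u = (r' : S) * (t * (-a * ((r'⁻¹ : Sˣ) : S)) + 1) := by
      linear_combination -ha + t * a * r'.mul_inv
    rw [h2]
    exact r'.isUnit.mul h1
  obtain ⟨u₀, hu₀⟩ := hnm r hr hru
  have hstep : ∀ (k : ℕ) (u : S), t ^ (k + 1) ∣ r - autNorm σ n u →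
      ∃ u', t ^ (k + 1) ∣ u' - u ∧ t ^ (k + 2) ∣ r - autNorm σ n u' := fun k u h =>
    exists_norm_step hσ ht hreg htr hr
      (hunit u ((dvd_pow_self t (Nat.succ_ne_zero k)).trans h)) h
  choose next hnext using hstep
  let seq : (k : ℕ) → {u : S // t ^ (k + 1) ∣ r - autNorm σ n u} := fun k =>
    Nat.rec ⟨u₀, by simpa using hu₀⟩ (fun k p => ⟨next k p.1 p.2, (hnext k p.1 p.2).2⟩) k
  let f : ℕ → S := fun k => (seq k).1
  have hcauchy : ∀ {a b : ℕ}, a ≤ b → t ^ a ∣ f a - f b := by
    intro a b hab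
    induction b, hab using Nat.le_induction with
    | base => simp
    | succ b hab ih =>
      have h1 : t ^ a ∣ f (b + 1) - f b :=
        (pow_dvd_pow t (hab.trans (Nat.le_succ b))).trans (hnext b (seq b).1 (seq b).2).1
      rw [show f a - f (b + 1) = (f a - f b) - (f (b + 1) - f b) by ring]
      exact dvd_sub ih h1
  obtain ⟨L, hL⟩ := IsPrecomplete.prec (I := Ideal.span {t}) (M := S) inferInstance
    (f := f) (fun {a b} hab => SModEq.sub_mem.mpr (hmem a _ (hcauchy hab)))
  refine ⟨L, (sub_eq_zero.mp (IsHausdorff.haus (I := Ideal.span {t}) (M := S) inferInstance _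
    fun m => SModEq.zero.mpr (hmem m _ ?_))).symm⟩
  have h1 : t ^ m ∣ autNorm σ n (f m) - autNorm σ n L :=
    dvd_autNorm_sub ht n m (hdvd m _ (SModEq.sub_mem.mp (hL m)))
  have h2 : t ^ m ∣ r - autNorm σ n (f m) :=
    (pow_dvd_pow t (Nat.le_succ m)).trans (seq m).2
  rw [show r - autNorm σ n L = (r - autNorm σ n (f m)) +
    (autNorm σ n (f m) - autNorm σ n L) by ring]
  exact dvd_add h2 h1

end Fermat.Agent.CubicDescent
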