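import Mathlib.GroupTheory.GroupAction.Defs
import Mathlib.Logic.Function.Iterate
import Mathlib.Data.Set.Basic

/-!
# Twisted fixed points

The combinatorial heart of the unit fundamental lemma for cyclic base change: if `δ` is a
"norm preimage" of `γ` lying in the stabiliser of every `γ`-fixed point, then the points fixed by
`δ ∘ σ` are exactly the `σ`-fixed points fixed by `γ`.
-/

set_option autoImplicit false

namespace Fermat.Agent.CubicDescent

variable {G X : Type*} [Group G] [MulAction G X]

/-- The twisted action `x ↦ δ • σ x`. -/
def twistedMap (δ : G) (s : X → X) (x : X) : X := δ • s x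

/-- The fixed points of `x ↦ δ • σ x` are the `σ`-fixed points fixed by `γ`. -/
theorem twistedFixed_eq {δ γ : G} {s : X → X} {n : ℕ}
    (hnorm : ∀ x : X, (twistedMap δ s)^[n] x = γ • x)
    (hstab : ∀ x : X, γ • x = x → δ • x = x) :
    {x | twistedMap δ s x = x} = {x | s x = x ∧ γ • x = x} := by
  ext x
  constructor
  · intro hx
    have hγ : γ • x = x := by
      rw [← hnorm x]
      exact Function.iterate_fixed hx n
    refine ⟨?_, hγ⟩
    have hx' : δ • s x = δ • x := by rw [hstab x hγ]; exact hx
    exact MulAction.injective δ hx'
  · rintro ⟨hs, hγ⟩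
    show δ • s x = x
    rw [hs, hstab x hγ]

end Fermat.Agent.CubicDescent
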