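import Mathlib.LinearAlgebra.Dual.Lemmas
import Mathlib.LinearAlgebra.LinearIndependent.Basic
import Mathlib.LinearAlgebra.Matrix.NonsingularInverse
import Mathlib.Algebra.MvPolynomial.Funext
import Mathlib.FieldTheory.Fixed

/-!
# Semilinear descent for a cyclic group

Speiser's lemma: a semilinear operator of order `n` over a field automorphism of exact order `n`
has enough fixed vectors; consequently twisted conjugacy with equal norms is twisted conjugacy.
-/

set_option autoImplicit false

namespace Fermat.Agent.CubicDescent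

open Finset

variable {L : Type*} [Field L]

/-- Speiser's lemma for cyclic semilinear actions. -/
theorem span_semilinearFixed_eq_top {V : Type*} [AddCommGroup V] [Module L V]
    (σ : L ≃+* L) {n : ℕ} (hn : 0 < n)
    (hσ : Function.Injective fun i : Fin n => (σ ^ (i : ℕ) : L ≃+* L))
    (τ : V →+ V) (hτ : ∀ (a : L) (v : V), τ (a • v) = σ a • τ v)
    (hτn : ∀ v, (⇑τ)^[n] v = v) :
    Submodule.span L {v | τ v = v} = ⊤ := by
  have hit : ∀ (i : ℕ) (a : L) (v : V), (⇑τ)^[i] (a • v) = (σ ^ i) a • (⇑τ)^[i] v := by
    intro i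
    induction i with
    | zero => simp
    | succ i ih =>
      intro a v
      rw [Function.iterate_succ_apply', Function.iterate_succ_apply', ih, hτ, pow_succ']
      rfl
  by_contra hne
  obtain ⟨φ, hφ, hker⟩ := Submodule.exists_le_ker_of_lt_top _ (lt_top_iff_ne_top.mpr hne)
  have hz : ∀ (a : L) (v : V), ∑ i : Fin n, (σ ^ (i : ℕ)) a * φ ((⇑τ)^[(i : ℕ)] v) = 0 := by
    intro a v
    have hfix : τ (∑ i ∈ range n, (⇑τ)^[i] (a • v)) = ∑ i ∈ range n, (⇑τ)^[i] (a • v) := by
      rw [map_sum]
      simp only [← Function.iterate_succ_apply']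
      have h1 := sum_range_succ (fun i => (⇑τ)^[i] (a • v)) n
      have h2 := sum_range_succ' (fun i => (⇑τ)^[i] (a • v)) n
      rw [hτn] at h1
      simp only [Function.iterate_zero, id_eq] at h2
      exact add_right_cancel (h2.symm.trans h1)
    have h0 : φ (∑ i ∈ range n, (⇑τ)^[i] (a • v)) = 0 := hker (Submodule.subset_span hfix)
    rw [map_sum, ← Fin.sum_univ_eq_sum_range (fun i => φ ((⇑τ)^[i] (a • v))) n] at h0
    simpa [hit, map_smul] using h0
  refine hφ (LinearMap.ext fun v => ?_)
  have hli : LinearIndependent L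
      fun i : Fin n => (⇑((σ ^ (i : ℕ) : L ≃+* L).toMonoidHom) : L → L) := by
    refine (linearIndependent_monoidHom L L).comp
      (fun i : Fin n => (σ ^ (i : ℕ) : L ≃+* L).toMonoidHom) ?_
    intro i j hij
    exact hσ (RingEquiv.ext fun a => DFunLike.congr_fun hij a)
  have hall := Fintype.linearIndependent_iff.mp hli (fun i => φ ((⇑τ)^[(i : ℕ)] v)) (by
    funext a
    simpa [Finset.sum_apply, mul_comm] using hz a v)
  simpa using hall ⟨0, hn⟩

section Matrix

variable {ι : Type*} [Fintype ι] [DecidableEq ι]

open MvPolynomial in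
/-- If the span of a set of square matrices stable under linear combinations with coefficients in
an infinite subring contains an invertible matrix, the set contains one. -/
theorem exists_det_ne_zero_of_span (k : Subfield L) [Infinite k]
    {ν : Type*} [Fintype ν] (b : ν → Matrix ι ι L) {x : Matrix ι ι L}
    (hx : x ∈ Submodule.span L (Set.range b)) (hdet : x.det ≠ 0) :
    ∃ c : ν → k, (∑ j, (c j : L) • b j).det ≠ 0 := by
  obtain ⟨a, rfl⟩ := (Submodule.mem_span_range_iff_exists_fun L).mp hx
  let P : MvPolynomial ν L :=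
    (Matrix.of fun r s => ∑ j, C (b j r s) * X j : Matrix ι ι (MvPolynomial ν L)).det
  have hP : ∀ c : ν → L, eval c P = (∑ j, c j • b j).det := by
    intro c
    simp only [P, RingHom.map_det]
    congr 1
    ext r s
    simp [Matrix.sum_apply, mul_comm]
  by_contra hall
  simp only [not_exists, not_not] at hall
  have hinf : ∀ _ : ν, Set.Infinite (k : Set L) := fun _ => Set.infinite_coe_iff.mp ‹_›
  have hP0 : P = 0 := by
    refine MvPolynomial.funext_set (fun _ => (k : Set L)) hinf fun c hc => ?_
    rw [hP, map_zero]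
    exact hall fun j => ⟨c j, hc j (Set.mem_univ j)⟩
  apply hdet
  rw [← hP, hP0, map_zero]

end Matrix

end Fermat.Agent.CubicDescent
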