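import Fermat.Agent.CubicDescent.Speiser
import Mathlib.LinearAlgebra.FiniteDimensional.Basic
import Mathlib.LinearAlgebra.Matrix.Charpoly.Coeff

/-!
# The twisted norm map on `GL_m`

Two elements with the same (rational) twisted norm are twisted conjugate by an element commuting
with that norm.
-/

set_option autoImplicit false

namespace Fermat.Agent.CubicDescent

section Monoid

variable {G F : Type*} [Monoid G] [FunLike F G G] [MonoidHomClass F G G]

/-- The twisted norm `δ * s δ * ⋯ * s^(i-1) δ`. -/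
def twistedNorm (s : F) (δ : G) : ℕ → G
  | 0 => 1
  | i + 1 => δ * s (twistedNorm s δ i)

omit [MonoidHomClass F G G] in
/-- The twisted norm, unfolded on the left. -/
theorem twistedNorm_succ (s : F) (δ : G) (i : ℕ) :
    twistedNorm s δ (i + 1) = δ * s (twistedNorm s δ i) := rfl

/-- The twisted norm, unfolded on the right. -/
theorem twistedNorm_succ' (s : F) (δ : G) (i : ℕ) :
    twistedNorm s δ (i + 1) = twistedNorm s δ i * (⇑s)^[i] δ := by
  induction i with
  | zero => simp [twistedNorm]
  | succ i ih =>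
    rw [twistedNorm_succ s δ (i + 1)]
    conv_lhs => rw [ih]
    rw [map_mul, ← mul_assoc, ← twistedNorm_succ, Function.iterate_succ_apply']

/-- If `s ^ n` fixes `δ`, a fixed twisted norm of length `n` commutes with `δ`. -/
theorem twistedNorm_commute {s : F} {δ : G} {n : ℕ} (hn : (⇑s)^[n] δ = δ)
    (hfix : s (twistedNorm s δ n) = twistedNorm s δ n) :
    δ * twistedNorm s δ n = twistedNorm s δ n * δ := by
  have h := twistedNorm_succ' s δ n
  rw [twistedNorm_succ, hfix, hn] at h
  exact h

end Monoid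

section Matrix

variable {L : Type*} [Field L] {ι : Type*} [Fintype ι] [DecidableEq ι]

/-- Entrywise action of a field automorphism on invertible matrices. -/
noncomputable def glMap (σ : L ≃+* L) : (Matrix ι ι L)ˣ →* (Matrix ι ι L)ˣ :=
  Units.map (σ.mapMatrix : Matrix ι ι L ≃+* Matrix ι ι L).toMonoidHom

/-- `glMap σ` applies `σ` to the entries. -/
@[simp] theorem coe_glMap (σ : L ≃+* L) (x : (Matrix ι ι L)ˣ) :
    (glMap σ x : Matrix ι ι L) = (x : Matrix ι ι L).map σ := rfl

/-- The iterates of `glMap σ` apply the powers of `σ` to the entries. -/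
theorem glMap_iterate (σ : L ≃+* L) (x : (Matrix ι ι L)ˣ) (i : ℕ) :
    (((⇑(glMap σ))^[i] x : (Matrix ι ι L)ˣ) : Matrix ι ι L) =
      (x : Matrix ι ι L).map ⇑(σ ^ i) := by
  induction i with
  | zero => ext; simp
  | succ i ih =>
    rw [Function.iterate_succ_apply', coe_glMap, ih, pow_succ']
    ext; simp

/-- The fixed field of a field automorphism. -/
def fixedSubfield (σ : L ≃+* L) : Subfield L :=
  RingHom.eqLocusField σ.toRingHom (RingHom.id L)

/-- The fixed subfield consists of the fixed elements. -/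
theorem mem_fixedSubfield {σ : L ≃+* L} {a : L} : a ∈ fixedSubfield σ ↔ σ a = a := Iff.rfl

/-- Elements with equal rational twisted norm are twisted conjugate inside the centraliser. -/
theorem exists_twistedConj (σ : L ≃+* L) {n : ℕ} (hn : 0 < n)
    (hσ : Function.Injective fun i : Fin n => (σ ^ (i : ℕ) : L ≃+* L))
    (hσn : σ ^ n = 1) [Infinite (fixedSubfield σ)]
    (δ δ' γ : (Matrix ι ι L)ˣ) (hγ : glMap σ γ = γ)
    (hδ : twistedNorm (glMap σ) δ n = γ) (hδ' : twistedNorm (glMap σ) δ' n = γ) :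
    ∃ x : (Matrix ι ι L)ˣ, x * γ = γ * x ∧ δ * glMap σ x = x * δ' := by
  have hper : ∀ y : (Matrix ι ι L)ˣ, (⇑(glMap σ))^[n] y = y := fun y => by
    ext : 1
    rw [glMap_iterate, hσn]
    ext; simp
  have hc : δ * γ = γ * δ := by
    have := twistedNorm_commute (hper δ) (by rw [hδ, hγ])
    rwa [hδ] at this
  have hc' : δ' * γ = γ * δ' := by
    have := twistedNorm_commute (hper δ') (by rw [hδ', hγ])
    rwa [hδ'] at this
  let C : Submodule L (Matrix ι ι L) :=
    { carrier := {X | X * (γ : Matrix ι ι L) = (γ : Matrix ι ι L) * X}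
      add_mem' := fun ha hb => by simp only [Set.mem_ofPred_eq] at *; rw [add_mul, mul_add, ha, hb]
      zero_mem' := by simp
      smul_mem' := fun a X hX => by
        simp only [Set.mem_ofPred_eq] at *; rw [Matrix.smul_mul, Matrix.mul_smul, hX] }
  have hγm : ∀ X : Matrix ι ι L, X * γ = γ * X →
      X.map σ * (γ : Matrix ι ι L) = (γ : Matrix ι ι L) * X.map σ := by
    intro X hX
    have h := congrArg (fun M : Matrix ι ι L => M.map σ) hX
    simp only [Matrix.map_mul] at h
    rwa [← coe_glMap σ γ, hγ] at h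
  have hC : ∀ X : Matrix ι ι L, X ∈ C →
      (δ : Matrix ι ι L) * X.map σ * (δ'⁻¹).val ∈ C := by
    intro X hX
    have h1 : (δ : Matrix ι ι L) * γ = γ * δ := congrArg Units.val hc
    have h2 : ((δ'⁻¹).val : Matrix ι ι L) * γ = γ * (δ'⁻¹).val :=
      congrArg Units.val (Commute.inv_left (show Commute δ' γ from hc')).eq
    show _ * (γ : Matrix ι ι L) = _
    rw [mul_assoc, h2, ← mul_assoc, mul_assoc (δ : Matrix ι ι L), hγm X hX, ← mul_assoc, h1]
    simp only [mul_assoc]
  let τ : C →+ C :=
    { toFun := fun X => ⟨(δ : Matrix ι ι L) * (X : Matrix ι ι L).map σ * (δ'⁻¹).val, hC X X.2⟩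
      map_zero' := Subtype.ext (by simp)
      map_add' := fun X Y => Subtype.ext (by
        simp [Matrix.map_add, mul_add, add_mul]) }
  have hτ : ∀ (a : L) (v : C), τ (a • v) = σ a • τ v := by
    intro a v
    refine Subtype.ext ?_
    show (δ : Matrix ι ι L) * ((a • v : C) : Matrix ι ι L).map σ * (δ'⁻¹).val =
      σ a • ((δ : Matrix ι ι L) * (v : Matrix ι ι L).map σ * (δ'⁻¹).val)
    rw [Submodule.coe_smul, Matrix.map_smul' (hf := fun x y => map_mul σ x y),
      Matrix.mul_smul, Matrix.smul_mul]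
  have hτi : ∀ (i : ℕ) (v : C), (((⇑τ)^[i] v : C) : Matrix ι ι L) =
      (twistedNorm (glMap σ) δ i : (Matrix ι ι L)ˣ) * (v : Matrix ι ι L).map ⇑(σ ^ i) *
        ((twistedNorm (glMap σ) δ' i)⁻¹).val := by
    intro i v
    induction i with
    | zero => simp [twistedNorm]
    | succ i ih =>
      rw [Function.iterate_succ_apply']
      show (δ : Matrix ι ι L) * ((((⇑τ)^[i] v : C)) : Matrix ι ι L).map σ * (δ'⁻¹).val = _
      rw [ih, Matrix.map_mul, Matrix.map_mul, ← coe_glMap, ← coe_glMap, map_inv,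
        twistedNorm_succ, twistedNorm_succ, mul_inv_rev, Units.val_mul, Units.val_mul, pow_succ',
        Matrix.map_map]
      simp only [mul_assoc]
      rfl
  have hτn : ∀ v, (⇑τ)^[n] v = v := by
    intro v
    refine Subtype.ext ?_
    rw [hτi, hδ, hδ', hσn]
    have hv : (v : Matrix ι ι L) * γ = γ * v := v.2
    rw [show ⇑(1 : L ≃+* L) = id from rfl, Matrix.map_id, ← hv, mul_assoc, Units.mul_inv, mul_one]
  have hspan := span_semilinearFixed_eq_top σ hn hσ τ hτ hτn
  obtain ⟨s, hs, hli⟩ := Submodule.exists_finset_span_eq_linearIndepOn L {v : C | τ v = v}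
  have hone : (1 : Matrix ι ι L) ∈ C := show (1 : Matrix ι ι L) * γ = γ * 1 by simp
  have hx : (1 : Matrix ι ι L) ∈ Submodule.span L
      (Set.range fun v : s => ((v : C) : Matrix ι ι L)) := by
    have h1 : (⟨1, hone⟩ : C) ∈ Submodule.span L (s : Set C) := by
      rw [hli.2.1, hspan]; trivial
    have := Submodule.mem_map_of_mem (f := C.subtype) h1
    rw [Submodule.map_span] at this
    rw [show (fun v : s => ((v : C) : Matrix ι ι L)) = C.subtype ∘ Subtype.val from rfl,
      Set.range_comp, Subtype.range_coe_subtype]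
    simpa using this
  obtain ⟨c, hc0⟩ := exists_det_ne_zero_of_span (fixedSubfield σ) _ hx (by simp)
  let y : C := ∑ v : s, ((c v : fixedSubfield σ) : L) • (v : C)
  have hy : τ y = y := by
    simp only [y, map_sum, hτ]
    refine Finset.sum_congr rfl fun v _ => ?_
    rw [mem_fixedSubfield.mp (c v).2, show τ (v : C) = v from hs v.2]
  have hyd : IsUnit (y : Matrix ι ι L) := by
    rw [Matrix.isUnit_iff_isUnit_det, isUnit_iff_ne_zero]
    simpa [y, Submodule.coe_sum] using hc0
  refine ⟨hyd.unit, Units.ext y.2, Units.ext ?_⟩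
  have := congrArg Subtype.val hy
  change (δ : Matrix ι ι L) * (y : Matrix ι ι L).map σ * (δ'⁻¹).val = (y : Matrix ι ι L) at this
  show (δ : Matrix ι ι L) * ((hyd.unit : (Matrix ι ι L)ˣ) : Matrix ι ι L).map σ =
    ((hyd.unit : (Matrix ι ι L)ˣ) : Matrix ι ι L) * δ'
  rw [IsUnit.unit_spec]
  calc (δ : Matrix ι ι L) * (y : Matrix ι ι L).map σ
      = (δ : Matrix ι ι L) * (y : Matrix ι ι L).map σ * (δ'⁻¹).val * δ' := by
        rw [mul_assoc _ ((δ'⁻¹).val : Matrix ι ι L), Units.inv_mul, mul_one]
    _ = (y : Matrix ι ι L) * δ' := by rw [this]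

end Matrix

end Fermat.Agent.CubicDescent
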